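/-
Lib / MvPSUFD (architect helper79): `K⟦X₁, …, Xₙ⟧` is a unique factorisation domain (`K` an infinite
field).  Mathlib only.  Input of S26 (factoriality of the local rings of a smooth variety).

`IsPP x` : `x` is, up to a unit, a product of prime elements.
-/
import Mathlib

set_option autoImplicit false

namespace Fermat.Agent.Lib.MvPSUFD

/-- `x` is associated to a product of prime elements. -/
def IsPP {R : Type*} [CommMonoidWithZero R] (x : R) : Prop :=
  ∃ s : Multiset R, (∀ p ∈ s, Prime p) ∧ Associated s.prod x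

section

variable {R : Type*} [CommMonoidWithZero R]

theorem IsPP.of_isUnit {x : R} (h : IsUnit x) : IsPP x :=
  ⟨0, by simp, by rw [Multiset.prod_zero]; exact (associated_one_iff_isUnit.2 h).symm⟩

theorem IsPP.of_prime {x : R} (h : Prime x) : IsPP x :=
  ⟨{x}, by simpa using h, by rw [Multiset.prod_singleton]⟩

theorem IsPP.mul {x y : R} (hx : IsPP x) (hy : IsPP y) : IsPP (x * y) := by
  obtain ⟨s, hs, hsx⟩ := hx
  obtain ⟨t, ht, hty⟩ := hy
  refine ⟨s + t, fun p hp => ?_, ?_⟩
  · rcases Multiset.mem_add.1 hp with h | h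
    · exact hs p h
    · exact ht p h
  · rw [Multiset.prod_add]
    exact hsx.mul_mul hty

theorem IsPP.of_associated {x y : R} (hx : IsPP x) (h : Associated x y) : IsPP y := by
  obtain ⟨s, hs, hsx⟩ := hx
  exact ⟨s, hs, hsx.trans h⟩

theorem IsPP.map {S : Type*} [CommMonoidWithZero S] (e : R ≃* S) {x : R} (hx : IsPP x) :
    IsPP (e x) := by
  obtain ⟨s, hs, hsx⟩ := hx
  refine ⟨s.map e, fun p hp => ?_, ?_⟩
  · obtain ⟨q, hq, rfl⟩ := Multiset.mem_map.1 hp
    exact (MulEquiv.prime_iff e).2 (hs q hq)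
  · have h1 : (s.map e).prod = e s.prod := (map_multiset_prod e s).symm
    rw [h1]
    exact hsx.map e

theorem IsPP.of_map {S : Type*} [CommMonoidWithZero S] (e : R ≃* S) {x : R} (hx : IsPP (e x)) :
    IsPP x := by
  have := hx.map e.symm
  rwa [MulEquiv.symm_apply_apply] at this

end

theorem ufm_of_forall_isPP {R : Type*} [CommMonoidWithZero R] [IsCancelMulZero R]
    (h : ∀ x : R, x ≠ 0 → IsPP x) : UniqueFactorizationMonoid R :=
  UniqueFactorizationMonoid.of_exists_prime_factors h

end Fermat.Agent.Lib.MvPSUFD
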