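/-
Lib / MvPSUFD, node CHG (helper79): a nonzero power series becomes regular in `X₀` after a linear change of
variables.
-/
import Fermat.Agent.Lib.MvPSUFD.Change.Aut
import Fermat.Agent.Lib.MvPSUFD.Change.Coeff
import Fermat.Agent.Lib.MvPSUFD.Change.Form

set_option autoImplicit false

namespace Fermat.Agent.Lib.MvPSUFD

open MvPowerSeries

/-- the shear as a ring automorphism -/
noncomputable def shearEquiv {K : Type*} [Field K] {n : ℕ} (c : Fin (n + 1) → K) (hc : c 0 = 0) :
    MvPowerSeries (Fin (n + 1)) K ≃+* MvPowerSeries (Fin (n + 1)) K where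
  toFun := subst (shear c)
  invFun := subst (shear (-c))
  left_inv f := subst_shear_neg c hc f
  right_inv f := by
    have h := subst_shear_neg (-c) (by simp [hc]) f
    rwa [neg_neg] at h
  map_mul' f g := subst_mul (hasSubst_shear c) f g
  map_add' f g := subst_add (hasSubst_shear c) f g

theorem shearEquiv_apply {K : Type*} [Field K] {n : ℕ} (c : Fin (n + 1) → K) (hc : c 0 = 0)
    (f : MvPowerSeries (Fin (n + 1)) K) : shearEquiv c hc f = subst (shear c) f := rfl

/-- CHG: conclusion. -/
theorem exists_equiv_regular {K : Type*} [Field K] [Infinite K] {n : ℕ}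
    (f : MvPowerSeries (Fin (n + 1)) K) (hf : f ≠ 0) :
    ∃ (e : MvPowerSeries (Fin (n + 1)) K ≃+* MvPowerSeries (Fin (n + 1)) K) (k : ℕ),
      coeff (Finsupp.single 0 k) (e f) ≠ 0 := by
  obtain ⟨d, hd⟩ : ∃ d, coeff d f ≠ 0 := by
    by_contra h
    exact hf (MvPowerSeries.ext fun d => by
      by_contra h'
      exact h ⟨d, by simpa using h'⟩)
  obtain ⟨c, hc, hne⟩ := exists_sum_ne_zero (∑ i, d i) (fun d => coeff d f)
    ⟨d, by simp [Finset.mem_finsuppAntidiag], hd⟩
  refine ⟨shearEquiv c hc, ∑ i, d i, ?_⟩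
  rw [shearEquiv_apply, coeff_subst_shear c hc]
  exact hne

end Fermat.Agent.Lib.MvPSUFD
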