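/-
Lib / MvPSUFD, node DESC (helper79): **Mori descent**.  A noetherian domain `O` with a faithfully flat map to a
local factorial domain `O'` is factorial.  Mathlib only.

* `colonIdeal_map` : `(b O : a) O' = (b O' : a)` (equational criterion of flatness);
* `exists_colonIdeal_eq_span` : the ideal `(b O : a)` is principal;
* `ufd_of_faithfullyFlat`.
-/
import Mathlib

set_option autoImplicit false

namespace Fermat.Agent.Lib.MvPSUFD

/-- the ideal `(b O : a) = {x | x a ∈ b O}` -/
def colonIdeal {O : Type*} [CommRing O] (a b : O) : Ideal O where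
  carrier := {x | b ∣ x * a}
  add_mem' := fun {x y} hx hy => by
    show b ∣ (x + y) * a
    rw [add_mul]; exact dvd_add hx hy
  zero_mem' := by
    show b ∣ (0 : O) * a
    rw [zero_mul]; exact dvd_zero _
  smul_mem' := fun c x hx => by
    show b ∣ (c • x) * a
    rw [smul_eq_mul, mul_assoc]; exact Dvd.dvd.mul_left hx c

theorem mem_colonIdeal {O : Type*} [CommRing O] {a b x : O} :
    x ∈ colonIdeal a b ↔ b ∣ x * a := Iff.rfl

variable {O O' : Type*} [CommRing O] [CommRing O'] [Algebra O O']

/-- colon ideals commute with flat base change -/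
theorem colonIdeal_map [Module.Flat O O'] (a b : O) :
    (colonIdeal a b).map (algebraMap O O') = colonIdeal (algebraMap O O' a) (algebraMap O O' b) := by
  apply le_antisymm
  · rw [Ideal.map_le_iff_le_comap]
    intro x hx
    rw [mem_colonIdeal] at hx
    obtain ⟨z, hz⟩ := hx
    rw [Ideal.mem_comap, mem_colonIdeal, ← map_mul, hz, map_mul]
    exact Dvd.intro _ rfl
  · intro y hy
    rw [mem_colonIdeal] at hy
    obtain ⟨z, hz⟩ := hy
    have hrel : ∑ i : Fin 2, (![a, -b] i) • (![y, z] i) = 0 := by
      rw [Fin.sum_univ_two]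
      simp only [Matrix.cons_val_zero, Matrix.cons_val_one, Algebra.smul_def, map_neg]
      rw [mul_comm, hz]; ring
    obtain ⟨k, A, Y, hxy, hA⟩ :=
      Module.Flat.isTrivialRelation_of_sum_smul_eq_zero (R := O) (M := O') hrel
    have h0 := hxy 0
    simp only [Matrix.cons_val_zero] at h0
    rw [h0]
    refine Ideal.sum_mem _ fun j _ => ?_
    rw [Algebra.smul_def]
    refine Ideal.mul_mem_right _ _ (Ideal.mem_map_of_mem _ ?_)
    have h1 := hA j
    rw [Fin.sum_univ_two] at h1
    simp only [Matrix.cons_val_zero, Matrix.cons_val_one] at h1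
    rw [mem_colonIdeal]
    exact ⟨A 1 j, by linear_combination h1⟩

/-- in a factorial domain the colon ideals are principal -/
theorem exists_colonIdeal_eq_span_of_ufd {R : Type*} [CommRing R] [IsDomain R]
    [UniqueFactorizationMonoid R] (a b : R) (hb : b ≠ 0) : ∃ c, colonIdeal a b = Ideal.span {c} := by
  classical
  let _ : GCDMonoid R := UniqueFactorizationMonoid.toGCDMonoid R
  obtain ⟨a', b', ha', hb', hcop⟩ := extract_gcd a b
  generalize gcd a b = g at ha' hb'
  have hg : g ≠ 0 := fun h => hb (by rw [hb', h, zero_mul])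
  refine ⟨b', ?_⟩
  ext x
  rw [mem_colonIdeal, Ideal.mem_span_singleton]
  constructor
  · intro h
    have h1 : g * b' ∣ g * (x * a') := by
      rw [← hb']
      have : g * (x * a') = x * a := by rw [ha']; ring
      rw [this]; exact h
    have h2 : b' ∣ x * a' := (mul_dvd_mul_iff_left hg).1 h1
    have h3 : IsRelPrime b' a' := ((gcd_isUnit_iff_isRelPrime).1 hcop).symm
    exact h3.dvd_of_dvd_mul_right h2
  · rintro ⟨y, rfl⟩
    exact ⟨y * a', by rw [hb', ha']; ring⟩

/-- an ideal of `O` whose extension to the local domain `O'` is principal is principal -/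
theorem exists_eq_span_of_map_eq_span [IsNoetherianRing O] [IsDomain O'] [IsLocalRing O']
    [Module.FaithfullyFlat O O'] (I : Ideal O) (c : O')
    (hc : I.map (algebraMap O O') = Ideal.span {c}) : ∃ x, I = Ideal.span {x} := by
  by_cases hc0 : c = 0
  · refine ⟨0, ?_⟩
    have h1 := Ideal.comap_map_eq_self_of_faithfullyFlat (B := O') I
    have h2 := Ideal.comap_map_eq_self_of_faithfullyFlat (B := O') (Ideal.span {(0 : O)})
    rw [← h1, ← h2, hc, hc0, Ideal.map_span, Set.image_singleton, map_zero]
  -- some element of `I` generates the extension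
  suffices h : ∃ x ∈ I, Ideal.span {c} ≤ Ideal.span {algebraMap O O' x} by
    obtain ⟨x, hx, hle⟩ := h
    refine ⟨x, ?_⟩
    have h1 := Ideal.comap_map_eq_self_of_faithfullyFlat (B := O') I
    have h2 := Ideal.comap_map_eq_self_of_faithfullyFlat (B := O') (Ideal.span {x})
    rw [← h1, ← h2]
    congr 1
    rw [Ideal.map_span, Set.image_singleton]
    apply le_antisymm
    · rw [hc]; exact hle
    · rw [Ideal.span_singleton_le_iff_mem]
      exact Ideal.mem_map_of_mem _ hx
  by_contra hno
  -- every element of `I` lies in `𝔪 c`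
  have hall : ∀ x ∈ I, algebraMap O O' x ∈ IsLocalRing.maximalIdeal O' * Ideal.span {c} := by
    intro x hx
    have h1 : algebraMap O O' x ∈ Ideal.span {c} := hc ▸ Ideal.mem_map_of_mem _ hx
    obtain ⟨u, hu⟩ := Ideal.mem_span_singleton.1 h1
    have hu' : u ∈ IsLocalRing.maximalIdeal O' := by
      rw [IsLocalRing.mem_maximalIdeal, mem_nonunits_iff]
      intro hunit
      apply hno
      refine ⟨x, hx, ?_⟩
      rw [Ideal.span_singleton_le_iff_mem, Ideal.mem_span_singleton, hu]
      obtain ⟨v, hv⟩ := hunit.exists_right_inv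
      exact ⟨v, by rw [mul_assoc, hv, mul_one]⟩
    rw [hu, mul_comm c u]
    exact Ideal.mul_mem_mul hu' (Ideal.mem_span_singleton_self c)
  have hle : Ideal.span {c} ≤ IsLocalRing.maximalIdeal O' * Ideal.span {c} := by
    have h1 : I.map (algebraMap O O') ≤ IsLocalRing.maximalIdeal O' * Ideal.span {c} := by
      rw [Ideal.map_le_iff_le_comap]
      exact fun x hx => hall x hx
    rwa [hc] at h1
  have hmem : c ∈ IsLocalRing.maximalIdeal O' * Ideal.span {c} :=
    hle (Ideal.mem_span_singleton_self c)
  rw [Ideal.mem_mul_span_singleton] at hmem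
  obtain ⟨z, hz, hzc⟩ := hmem
  have : z = 1 := by
    have h1 : z * c = 1 * c := by rw [hzc, one_mul]
    exact mul_right_cancel₀ hc0 h1
  rw [this] at hz
  exact (Ideal.ne_top_iff_one _).1 (IsLocalRing.maximalIdeal.isMaximal O').ne_top hz

/-- **Mori descent**, colon ideals. -/
theorem exists_colonIdeal_eq_span [IsNoetherianRing O] [IsDomain O'] [IsLocalRing O']
    [UniqueFactorizationMonoid O'] [Module.FaithfullyFlat O O'] (a b : O) (hb : b ≠ 0) :
    ∃ c, colonIdeal a b = Ideal.span {c} := by
  have hinj : Function.Injective (algebraMap O O') := FaithfulSMul.algebraMap_injective O O'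
  obtain ⟨c, hc⟩ := exists_colonIdeal_eq_span_of_ufd (algebraMap O O' a) (algebraMap O O' b)
    (fun h => hb (hinj (by rw [h, map_zero])))
  exact exists_eq_span_of_map_eq_span (O' := O') _ c (by rw [colonIdeal_map, hc])

/-- **Mori descent**: a noetherian domain with a faithfully flat map to a local factorial domain is factorial. -/
theorem ufd_of_faithfullyFlat [IsDomain O] [IsNoetherianRing O] [IsDomain O'] [IsLocalRing O']
    [UniqueFactorizationMonoid O'] [Module.FaithfullyFlat O O'] : UniqueFactorizationMonoid O := by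
  refine { irreducible_iff_prime := fun {p} => ⟨fun hp => ?_, Prime.irreducible⟩ }
  refine ⟨hp.ne_zero, hp.not_isUnit, fun a b hab => ?_⟩
  by_contra hcon
  rw [not_or] at hcon
  obtain ⟨c, hc⟩ := exists_colonIdeal_eq_span (O' := O') b p hp.ne_zero
  have h1 : p ∈ colonIdeal b p := by rw [mem_colonIdeal]; exact Dvd.intro _ rfl
  have h2 : a ∈ colonIdeal b p := by rw [mem_colonIdeal]; exact hab
  rw [hc, Ideal.mem_span_singleton] at h1 h2
  obtain ⟨e, he⟩ := h1
  rcases hp.isUnit_or_isUnit he with hu | hu
  · -- `1 ∈ (p : b)`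
    have h3 : (1 : O) ∈ colonIdeal b p := by
      rw [hc, Ideal.mem_span_singleton]; exact hu.dvd
    rw [mem_colonIdeal, one_mul] at h3
    exact hcon.2 h3
  · apply hcon.1
    have : p ∣ c := by
      obtain ⟨v, hv⟩ := hu.exists_right_inv
      exact ⟨v, by rw [he, mul_assoc, hv, mul_one]⟩
    exact this.trans h2

end Fermat.Agent.Lib.MvPSUFD
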