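/-
Lib / MvPSUFD, node MAX: the maximal ideal of `K⟦X₁, …, Xₙ⟧` is generated by the variables; completeness.
-/
import Fermat.Agent.Lib.MvPSUFD.Defs

set_option autoImplicit false

namespace Fermat.Agent.Lib.MvPSUFD

open MvPowerSeries

/-- peel off the variables one at a time -/
private theorem maxIdeal_aux {R : Type*} [CommRing R] {σ : Type*} [DecidableEq σ] (s : Finset σ) :
    ∀ f : MvPowerSeries σ R, (∀ d : σ →₀ ℕ, (∀ i ∈ s, d i = 0) → coeff d f = 0) →
      f ∈ Ideal.span (Set.range (X : σ → MvPowerSeries σ R)) := by
  induction s using Finset.induction_on with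
  | empty =>
    intro f hf
    have h0 : f = 0 := by
      ext d
      rw [hf d (by simp), map_zero]
    rw [h0]
    exact Ideal.zero_mem _
  | insert a s ha ih =>
    intro f hf
    let f₁ : MvPowerSeries σ R := fun d => if d a = 0 then 0 else coeff d f
    let f₂ : MvPowerSeries σ R := fun d => if d a = 0 then coeff d f else 0
    have hsum : f = f₁ + f₂ := by
      ext d
      rw [map_add]
      show coeff d f = (if d a = 0 then 0 else coeff d f) + (if d a = 0 then coeff d f else 0)
      split_ifs <;> simp
    rw [hsum]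
    refine Ideal.add_mem _ ?_ (ih f₂ ?_)
    · have hdvd : X a ∣ f₁ := by
        rw [X_dvd_iff]
        intro m hm
        show (if m a = 0 then 0 else coeff m f) = 0
        rw [if_pos hm]
      obtain ⟨c, hc⟩ := hdvd
      rw [hc]
      exact Ideal.mul_mem_right _ _ (Ideal.subset_span ⟨a, rfl⟩)
    · intro d hd
      show (if d a = 0 then coeff d f else 0) = 0
      split_ifs with h0
      · refine hf d fun i hi => ?_
        rcases Finset.mem_insert.1 hi with rfl | hi
        · exact h0
        · exact hd i hi
      · rfl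

theorem mem_span_range_X {R : Type*} [CommRing R] {n : ℕ} (f : MvPowerSeries (Fin n) R)
    (hf : constantCoeff f = 0) : f ∈ Ideal.span (Set.range (X : Fin n → MvPowerSeries (Fin n) R)) := by
  refine maxIdeal_aux Finset.univ f fun d hd => ?_
  have hd0 : d = 0 := Finsupp.ext fun i => hd i (Finset.mem_univ i)
  rw [hd0, coeff_zero_eq_constantCoeff_apply, hf]

theorem maximalIdeal_eq {K : Type*} [Field K] (n : ℕ) :
    IsLocalRing.maximalIdeal (MvPowerSeries (Fin n) K) =
      Ideal.span (Set.range (X : Fin n → MvPowerSeries (Fin n) K)) := by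
  apply le_antisymm
  · intro f hf
    apply mem_span_range_X
    rw [IsLocalRing.mem_maximalIdeal, mem_nonunits_iff, isUnit_iff_constantCoeff] at hf
    by_contra h
    exact hf (isUnit_iff_ne_zero.2 h)
  · rw [Ideal.span_le]
    rintro _ ⟨i, rfl⟩
    rw [SetLike.mem_coe, IsLocalRing.mem_maximalIdeal, mem_nonunits_iff, isUnit_iff_constantCoeff,
      constantCoeff_X]
    exact not_isUnit_zero

theorem isAdicComplete_maximalIdeal {K : Type*} [Field K] (n : ℕ) :
    IsAdicComplete (IsLocalRing.maximalIdeal (MvPowerSeries (Fin n) K))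
      (MvPowerSeries (Fin n) K) := by
  rw [maximalIdeal_eq]
  infer_instance

end Fermat.Agent.Lib.MvPSUFD
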