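/-
Lib / MvPSUFD, node REG: over a complete local factorial domain `A`, a power series which is regular
in `X` (nonzero modulo the maximal ideal) is a product of primes of `A⟦X⟧`.
Proof: strong induction on `d = order (g mod 𝔪)`.  Weierstrass preparation `g = f h`, `f` distinguished
of degree `d`.  `f = 1`: unit.  `f` irreducible in `A[X]`: prime in `A[X]` (Gauss), and
`A[X]/(f) ≃ A⟦X⟧/(f)` (`Polynomial.IsDistinguishedAt.algEquivQuotient`), so `f` is prime in `A⟦X⟧`.  Otherwise
(`Polynomial.Monic.irreducible_iff_natDegree`) `f = a b` with `a`, `b` monic of degree `≠ 0`, and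
`order (a mod 𝔪) ≤ natDegree a < d`.
(helper274: this is exactly leaf U3 of S26/UFD, proved by helper70 in `S26/UFD/Weierstrass.lean`, Mathlib only.)
-/
import Fermat.Agent.Lib.MvPSUFD.Defs
import Fermat.Agent.S26.UFD.Weierstrass

set_option autoImplicit false

namespace Fermat.Agent.Lib.MvPSUFD

open PowerSeries

theorem isPP_of_regular {A : Type*} [CommRing A] [IsDomain A] [IsLocalRing A]
    [IsAdicComplete (IsLocalRing.maximalIdeal A) A] [UniqueFactorizationMonoid A]
    (g : A⟦X⟧) (hg : g.map (IsLocalRing.residue A) ≠ 0) : IsPP g :=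
  Fermat.Agent.S26.UFD.exists_prime_factors_of_map_ne_zero A g hg

end Fermat.Agent.Lib.MvPSUFD
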