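/-
Lib / MvPSUFD (helper79): `K⟦X₁, …, Xₙ⟧` is a unique factorisation domain (`K` an infinite field).
-/
import Fermat.Agent.Lib.MvPSUFD.Regular
import Fermat.Agent.Lib.MvPSUFD.MaxIdeal
import Fermat.Agent.Lib.MvPSUFD.Change

set_option autoImplicit false

namespace Fermat.Agent.Lib.MvPSUFD

open MvPowerSeries

/-- `K⟦X₁, …, Xₙ⟧` is factorial. -/
theorem ufd_fin (K : Type*) [Field K] [Infinite K] (n : ℕ) :
    UniqueFactorizationMonoid (MvPowerSeries (Fin n) K) := by
  induction n with
  | zero =>
    exact (isEmptyEquiv (Fin 0) K).toMulEquiv.symm.uniqueFactorizationMonoid inferInstance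
  | succ n ih =>
    have hcomp := isAdicComplete_maximalIdeal (K := K) n
    have hdom : IsDomain (MvPowerSeries (Fin n) K) := NoZeroDivisors.to_isDomain _
    have hdom' : IsDomain (MvPowerSeries (Fin (n + 1)) K) := NoZeroDivisors.to_isDomain _
    refine ufm_of_forall_isPP fun f hf => ?_
    obtain ⟨e, k, hk⟩ := exists_equiv_regular f hf
    refine IsPP.of_map e.toMulEquiv ?_
    refine IsPP.of_map (finSuccEquiv K n).toMulEquiv ?_
    refine isPP_of_regular _ fun h0 => ?_
    have h1 := congrArg (PowerSeries.coeff k) h0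
    rw [PowerSeries.coeff_map, map_zero, IsLocalRing.residue_eq_zero_iff,
      IsLocalRing.mem_maximalIdeal, mem_nonunits_iff, MvPowerSeries.isUnit_iff_constantCoeff,
      isUnit_iff_ne_zero, not_not] at h1
    apply hk
    have h2 := coeff_coeff_finSuccEquiv (e f) (k := k) (x := 0)
    have h3 : (Finsupp.cons k (0 : Fin n →₀ ℕ)) = Finsupp.single 0 k := by
      ext i
      refine Fin.cases ?_ (fun j => ?_) i
      · simp
      · simp [Finsupp.single_apply, Fin.succ_ne_zero, (Fin.succ_ne_zero j).symm]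
    rw [h3] at h2
    rw [← h2]
    exact h1

/-- `K⟦X_s, s ∈ σ⟧` is factorial, `σ` finite. -/
theorem ufd (K : Type*) [Field K] [Infinite K] (σ : Type*) [Finite σ] :
    UniqueFactorizationMonoid (MvPowerSeries σ K) := by
  cases nonempty_fintype σ
  exact (renameEquiv K (Fintype.equivFin σ)).toMulEquiv.symm.uniqueFactorizationMonoid
    (ufd_fin K (Fintype.card σ))

end Fermat.Agent.Lib.MvPSUFD
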